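/-
PROJECT T (S56), block (a1-II) = S56/Base, leaf (F1.1) of (TAIL) (helper4): FINITE-LEVEL SEMILOCAL
SHAPIRO IS ONTO.

Companion of `D/H4/ShapiroCompare.lean` and `D/H4/Main.lean` (which export joint injectivity):
for a family of orbit representatives with comparison data, the comparison maps
`Hⁿ(Γ, M) ⟶ Hⁿ(Γ' i, N i)` are jointly SURJECTIVE, and so are the finite-level maps `finMap` of a
`LevelData`, also with `Hom(B, -)` coefficients.
-/
import Fermat.Agent.CFT.D.H4.Main

set_option autoImplicit false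

universe u w

noncomputable section

namespace Fermat.Agent.S56.Base.Tail.LocSurj

open CategoryTheory groupCohomology Fermat.Agent.CFT.LC Fermat.Agent.CFT.A7.HomRep
  Fermat.Agent.CFT.C1 Fermat.Agent.CFT.D.H4

section Compare

variable {k Γ : Type u} [CommRing k] [Group Γ] {M : Rep.{u} k Γ}
  {X : Type*} [MulAction Γ X] [Fintype X]

/-- The comparison map on the cohomology of the stabiliser has a right inverse. -/
theorem stabMap_surjective {S : ImprimitivitySystem M X} {x0 : X} {Γ' : Type u} [Group Γ']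
    {N : Rep.{u} k Γ'} (D : CompareData S x0 Γ' N) (n : ℕ) :
    Function.Surjective (D.stabMap n) := by
  have h1 : groupCohomology.map D.ψEquiv.symm.toMonoidHom D.τ'Inv n ≫ D.stabMap n = 𝟙 _ := by
    unfold CompareData.stabMap
    rw [← groupCohomology.map_comp, ← groupCohomology.map_id]
    refine groupCohomology.map_congr ?_ ?_ n
    · ext g
      exact D.ψEquiv.symm_apply_apply g
    · ext b
      exact D.τEquiv.apply_symm_apply b
  intro z
  refine ⟨groupCohomology.map D.ψEquiv.symm.toMonoidHom D.τ'Inv n z, ?_⟩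
  have hz := ConcreteCategory.congr_hom h1 z
  rwa [ConcreteCategory.comp_apply] at hz

/-- **Joint surjectivity.**  For a family `r` of orbit representatives of `X` with comparison data
at every `r i`, every family of classes of the `Hⁿ(Γ' i, N i)` comes from a class of `Hⁿ(Γ, M)`. -/
theorem exists_map_eq (S : ImprimitivitySystem M X) {ι : Type*} [Fintype ι] (r : ι → X)
    (hr_surj : ∀ x, ∃ i, x ∈ MulAction.orbit Γ (r i))
    (hr_inj : ∀ i j, r j ∈ MulAction.orbit Γ (r i) → i = j)
    {Γ' : ι → Type u} [∀ i, Group (Γ' i)] {N : ∀ i, Rep.{u} k (Γ' i)}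
    (D : ∀ i, CompareData S (r i) (Γ' i) (N i)) (n : ℕ) (z : ∀ i, groupCohomology (N i) n) :
    ∃ c : groupCohomology M n, ∀ i, groupCohomology.map (D i).ψ (D i).τ n c = z i := by
  choose w hw using fun i => stabMap_surjective (D i) n (z i)
  obtain ⟨c, hc⟩ := (S.bijective_resProjMap r hr_surj hr_inj n).2 w
  refine ⟨c, fun i => ?_⟩
  rw [(D i).map_apply n c]
  have h1 : (S.resProjMap (r i) n).hom c = w i := congrFun hc i
  change (D i).stabMap n ((S.resProjMap (r i) n).hom c) = z i
  rw [h1]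
  exact hw i

end Compare

section Level

variable {k G : Type u} [CommRing k] [Group G] {ι : Type*} {Gv : ι → Type u}
  [∀ v, Group (Gv v)] {J : Rep.{u} k G} {φ : ∀ v, Gv v →* G} {𝒰v : ∀ v, Levels (Gv v)}
  {Y : ∀ v, Rep.{u} k (Gv v)} {π : ∀ v, Rep.res (φ v) J ⟶ Y v}

/-- **Joint surjectivity at a finite level, with `Hom(B, -)` coefficients**: the companion of
`LevelData.eq_zero_of_forall_finMap_eq_zero`. -/
theorem exists_finMap_eq [Fintype ι] {U : Subgroup G} [U.Normal]
    (D : LevelData.{u, w} J φ 𝒰v π U) (B : Rep.{u} k G) (hB : ∀ u ∈ U, ∀ b : B.V, B.ρ u b = b)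
    (n : ℕ)
    (z : ∀ v, groupCohomology ((homRep (Rep.res (φ v) B) (Y v)).quotientToInvariants (D.V v)) n) :
    ∃ y : groupCohomology ((homRep B J).quotientToInvariants U) n,
      ∀ v, finMap (φ v) (homPush (φ v) B (π v)) U (D.V v) (D.le v) n y = z v :=
  exists_map_eq (D.F.hom B).invSystem D.r D.r_surj D.r_inj
    (fun v => ((D.loc v).hom B hB).compareData) n z

/-- The local level of a `LevelData` is the full preimage of the global level. -/
theorem levelData_V_eq {U : Subgroup G} [U.Normal] (D : LevelData.{u, w} J φ 𝒰v π U) (v : ι) :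
    D.V v = U.comap (φ v) := by
  refine le_antisymm (D.le v) fun g hg => ?_
  have h1 : quotHom (φ v) U (D.V v) (D.le v) (g : Gv v ⧸ D.V v) = 1 := by
    rw [quotHom_mk]
    exact (QuotientGroup.eq_one_iff _).2 hg
  have h2 := (D.loc v).quot_injective (h1.trans (map_one _).symm)
  exact (QuotientGroup.eq_one_iff g).1 h2

/-- **Joint surjectivity in level-constant cohomology** (the companion of `H4.h4_one`, `H4.h4_two`):
if cofinally many levels carry `LevelData` and every class `y v` is inflated from every small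
enough local level of the form `U.comap (φ v)`, the family `y` comes from a class of
`Hⁿ_LC(G, Hom(B, J))`.  The level families `𝒰v'` of the local groups in the conclusion may differ
from those of the `LevelData`; they only have to contain the preimages of the levels of `G`. -/
theorem exists_map_eq_of_levelData [Fintype ι] {𝒰 : Levels G} {𝒰v' : ∀ v, Levels (Gv v)}
    (hφ : ∀ v, Levels.Continuous (φ v) (𝒰v' v) 𝒰)
    (hcomap : ∀ U ∈ 𝒰.sets, ∀ v, U.comap (φ v) ∈ (𝒰v' v).sets)
    (B : Rep.{u} k G) (U₁ : Subgroup G) (hU₁ : U₁ ∈ 𝒰.sets)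
    (hB : ∀ u ∈ U₁, ∀ b : B.V, B.ρ u b = b)
    (hdata : ∀ U₀ ∈ 𝒰.sets, ∃ (U : Subgroup G) (_ : U.Normal) (_ : U ∈ 𝒰.sets) (_ : U ≤ U₀),
      Nonempty (LevelData.{u, w} J φ 𝒰v π U))
    (n : ℕ) (y : ∀ v, H (𝒰v' v) (homRep (Rep.res (φ v) B) (Y v)) n)
    (U₂ : Subgroup G) (hU₂ : U₂ ∈ 𝒰.sets)
    (hy : ∀ v (V : Subgroup (Gv v)) (_ : V.Normal) (hV : V ∈ (𝒰v' v).sets),
      V ≤ U₂.comap (φ v) →
        ∃ z : groupCohomology ((homRep (Rep.res (φ v) B) (Y v)).quotientToInvariants V) n,
          infl (𝒰v' v) (homRep (Rep.res (φ v) B) (Y v)) V hV n z = y v) :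
    ∃ x : H 𝒰 (homRep B J) n, ∀ v, Fermat.Agent.CFT.LC.map (hφ v) (homPush (φ v) B (π v)) n x = y v := by
  obtain ⟨U₃, hU₃, hU₃le⟩ := 𝒰.directed U₁ hU₁ U₂ hU₂
  obtain ⟨U, hN, hU, hUle, ⟨D⟩⟩ := hdata U₃ hU₃
  have hBU : ∀ u ∈ U, ∀ b : B.V, B.ρ u b = b := fun u hu =>
    hB u ((hUle.trans hU₃le).trans inf_le_left hu)
  have hV' : ∀ v, D.V v ∈ (𝒰v' v).sets := fun v => by
    rw [levelData_V_eq D v]
    exact hcomap U hU v
  have hle : ∀ v, D.V v ≤ U₂.comap (φ v) := fun v =>
    (D.le v).trans (Subgroup.comap_mono ((hUle.trans hU₃le).trans inf_le_right))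
  choose z hz using fun v => hy v (D.V v) (D.normal v) (hV' v) (hle v)
  obtain ⟨y₀, hy₀⟩ := exists_finMap_eq D B hBU n z
  refine ⟨infl 𝒰 (homRep B J) U hU n y₀, fun v => ?_⟩
  rw [infl_map_apply (φ v) (homPush (φ v) B (π v)) U (D.V v) (D.le v) (hφ v) hU (hV' v) n y₀,
    hy₀ v]
  exact hz v

end Level

end Fermat.Agent.S56.Base.Tail.LocSurj
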