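/-
PROJECT T (S56), block (a1-II) = S56/Base, leaf (F1.3) of (TAIL) (helper4): SEMILOCAL SHAPIRO IS ONTO
ON `p`-TORSION IN DEGREE TWO, modulo two inputs stated as hypotheses.

`J = J_S ⊗ k = ⊕_{q ∈ S} J_q ⊗ k`, `D_q = ℚ̄_qˣ ⊗ k`, `B` a `k`-lattice on which a level of
`levelsS S` acts trivially.  Given

* `hdeg`  (helper9, `Base/Arith/LocalDegree`): below every level `U₀` of `levelsS S` there is a level
  `U` with `p ∣ [U₀.comap r_q : U.comap r_q]` for all `q ∈ S` (the local degrees of `ℚ_S` are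
  divisible by `p^∞`);
* `hinfl` (helper10, `Base/TNLC`, for the local class formation on `Uv S q`): a `p`-torsion class
  of `H²(G_q, Hom(B, D_q))` is inflated from every local level `V ≤ V₀` with `p ∣ [V₀ : V]`, `V₀`
  acting trivially on `B`;

every family of `p`-torsion classes `y q ∈ H²(G_q, Hom(B, D_q))` is the localisation of a class of
`H²(G_S, Hom(B, J))`.
-/
import Fermat.Agent.S56.Base.Tail.LocSurj.FinSurj
import Fermat.Agent.CFT.D.DatumInjFrob

set_option autoImplicit false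
set_option linter.unusedSectionVars false

universe u

noncomputable section

namespace Fermat.Agent.S56.Base.Tail.LocSurj

open CategoryTheory groupCohomology Fermat.Agent.CFT.LC Fermat.Agent.CFT.LC.El
  Fermat.Agent.CFT.A7.HomRep Fermat.Agent.CFT.D Fermat.Agent.CFT.D.H4
  Fermat.Agent.CFT.D.LocalRow

/-! ### Surjectivity place by place gives joint surjectivity for a finite direct sum -/

section Biprod

variable {k G : Type u} [CommRing k] [Group G] {ι : Type*} [Fintype ι]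
  {J : Rep.{u} k G} {Jv : ι → Rep.{u} k G} (b : BiprodData J Jv)
  {𝒰 : Levels G} {Gv : ι → Type u} [∀ v, Group (Gv v)] (r : ∀ v, Gv v →* G)
  {𝒰v : ∀ v, Levels (Gv v)} (hr : ∀ v, Levels.Continuous (r v) (𝒰v v) 𝒰)
  {D : ∀ v, Rep.{u} k (Gv v)} (π' : ∀ v, Rep.res (r v) (Jv v) ⟶ D v)

/-- If every `z v` is the localisation of a class of `Hⁿ(G, J_v)`, the family `z` is the
localisation of a class of `Hⁿ(G, J)`, `J = ⊕ J_v`. -/
theorem exists_map_loc_eq (n : ℕ) (z : ∀ v, H (𝒰v v) (D v) n)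
    (hz : ∀ v, ∃ y : H 𝒰 (Jv v) n, map (A := Jv v) (B := D v) (hr v) (π' v) n y = z v)
    (f : ∀ v, Rep.res (r v) J ⟶ D v) (hf : ∀ v, f v = b.loc r π' v) :
    ∃ y : H 𝒰 J n, ∀ v, map (A := J) (B := D v) (hr v) (f v) n y = z v := by
  classical
  choose y hy using hz
  refine ⟨∑ v, mapId (b.i v) n (y v), fun v' => ?_⟩
  rw [hf v', b.map_loc r hr π' n v', map_sum]
  rw [Finset.sum_eq_single v']
  · rw [b.mapId_p_mapId_i_self n v' (y v')]
    exact hy v'
  · intro v _ hv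
    exact b.mapId_p_mapId_i_of_ne n hv (y v)
  · intro h
    exact absurd (Finset.mem_univ v') h

/-- The same for `Hom(P, J)` and the localisation maps `pushLoc` of `D/LocalRow.lean`. -/
theorem exists_map_pushLoc_eq (P : Rep.{u} k G) (n : ℕ)
    (z : ∀ v, H (𝒰v v) (homRep (Rep.res (r v) P) (D v)) n)
    (hz : ∀ v, ∃ y : H 𝒰 (homRep P (Jv v)) n,
      map (A := homRep P (Jv v)) (B := homRep (Rep.res (r v) P) (D v)) (hr v)
        (pushLoc (r v) (π' v) P) n y = z v) :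
    ∃ y : H 𝒰 (homRep P J) n,
      ∀ v, map (A := homRep P J) (B := homRep (Rep.res (r v) P) (D v)) (hr v)
        (pushLoc (r v) (b.loc r π' v) P) n y = z v :=
  exists_map_loc_eq (b.hom P) r hr (fun v => pushLoc (r v) (π' v) P) n z hz
    (fun v => pushLoc (r v) (b.loc r π' v) P) (fun v => b.pushLoc_loc r π' P v)

end Biprod

/-! ### The instance `J_S ⊗ k = ⊕_{q ∈ S} J_q ⊗ k` -/

section Concrete

open Fermat.Agent.CFT.Idele Fermat.Agent.CFT.Bridge Fermat.Agent.CFT.LocalBridge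
  Fermat.Agent.CFT.A7.BaseChange Fermat.Agent.CFT.D.H4.QIdele Fermat.Agent.CFT.D.Reduce
  Fermat.Agent.CFT.D.DatumInjFrob ExtCitation

variable (S : Finset Nat.Primes) (k : Type) [CommRing k] [Algebra ℤ k]
  (M : Submonoid ℤ) [IsLocalization M k] (p : ℕ)

/-- The shape of helper10's `TNLC.exists_infl_eq_of_torsion` at the place `q`, for the lattice
`Res_q B`: `p`-torsion classes are inflated from the levels of `p`-divisible relative index. -/
def InflHyp (q : ↥S) (B : Rep.{0} k GQ) : Prop :=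
  ∀ (V₀ V : Subgroup (Gv S q)) (_ : V₀.Normal) (_ : V.Normal) (_ : V₀ ∈ (Uv S q).sets)
    (hV : V ∈ (Uv S q).sets), V ≤ V₀ → (∀ v ∈ V₀, ∀ b : B.V, B.ρ (rv S q v) b = b) →
    p ∣ V.relIndex V₀ →
    ∀ y : H (Uv S q) (homRep (Rep.res (rv S q) B) (DlocK S k q)) 2, ((p : ℕ) : k) • y = 0 →
      ∃ z : groupCohomology
          ((homRep (Rep.res (rv S q) B) (DlocK S k q)).quotientToInvariants V) 2,
        infl (Uv S q) (homRep (Rep.res (rv S q) B) (DlocK S k q)) V hV 2 z = y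

/-- The shape of helper9's `LocalDegree.exists_level_le_dvd_relIndex`. -/
def DegHyp : Prop :=
  ∀ U₀ ∈ (levelsS S).sets, ∃ U ∈ (levelsS S).sets, U ≤ U₀ ∧
    ∀ q : ↥S, p ∣ (U.comap (rv S q)).relIndex (U₀.comap (rv S q))

include M in
/-- **One place**: a `p`-torsion class of `H²(G_q, Hom(B, D_q))` is the localisation of a class of
`H²(G_S, Hom(B, J_q ⊗ k))`. -/
theorem exists_map_homPush_eq_JqK (q : ↥S) (B : Rep.{0} k GQ) (U₁ : Subgroup GQ)
    (hU₁ : U₁ ∈ (levelsS S).sets) (hB : ∀ u ∈ U₁, ∀ b : B.V, B.ρ u b = b)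
    (U₂ : Subgroup GQ) (hU₂ : U₂ ∈ (levelsS S).sets) (hle : U₂ ≤ U₁)
    (hdvd : p ∣ (U₂.comap (rv S q)).relIndex (U₁.comap (rv S q)))
    (hinfl : InflHyp S k p q B)
    (y : H (Uv S q) (homRep (Rep.res (rv S q) B) (DlocK S k q)) 2)
    (hy : ((p : ℕ) : k) • y = 0) :
    ∃ x : H (levelsS S) (homRep B (JqK S q.1 k)) 2,
      map (A := homRep B (JqK S q.1 k)) (B := homRep (Rep.res (rv S q) B) (DlocK S k q))
        (hrv S q) (pushLoc (rv S q) (piqK S k q) B) 2 x = y := by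
  have hN₁ : U₁.Normal := (levelsS S).normal U₁ hU₁
  have hmem : ∀ U ∈ (levelsS S).sets, U.comap (rv S q) ∈ (Uv S q).sets := fun U hU =>
    Levels.mem_comap_sets (mem_levelsAll_of_mem_levelsS S hU)
  obtain ⟨x, hx⟩ := exists_map_eq_of_levelData (ι := Unit) (Gv := fun _ => Gv S q)
    (φ := fun _ => rv S q) (𝒰v := fun _ => levelsLoc (q.1 : ℕ)) (Y := fun _ => DlocK S k q)
    (π := fun _ => piqK S k q) (𝒰 := levelsS S) (𝒰v' := fun _ => Uv S q)
    (fun _ => hrv S q) (fun U hU _ => hmem U hU) B U₁ hU₁ hB (hdata_JqK S q.1 k M) 2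
    (fun _ => y) U₂ hU₂
    (fun _ V hVN hV hVle => by
      have hV₀N : (U₁.comap (rv S q)).Normal := inferInstance
      refine hinfl (U₁.comap (rv S q)) V hV₀N hVN (hmem U₁ hU₁) hV
        (hVle.trans (Subgroup.comap_mono hle)) (fun v hv b => hB _ hv b) ?_ y hy
      exact hdvd.trans (Subgroup.relIndex_dvd_of_le_left _ hVle))
  exact ⟨x, hx ()⟩

include M in
/-- **(F1), modulo `hdeg` and `hinfl`**: every family of `p`-torsion classes
`y q ∈ H²(G_q, Hom(B, D_q))`, `q ∈ S`, is the localisation of a class of `H²(G_S, Hom(B, J_S ⊗ k))`. -/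
theorem exists_map_locHom_eq_of (B : Rep.{0} k GQ)
    (hB : ∃ U ∈ (levelsS S).sets, ∀ u ∈ U, ∀ b : B.V, B.ρ u b = b)
    (hdeg : DegHyp S p) (hinfl : ∀ q : ↥S, InflHyp S k p q B)
    (y : ∀ q : ↥S, H (Uv S q) (homRep (Rep.res (rv S q) B) (DlocK S k q)) 2)
    (hy : ∀ q, ((p : ℕ) : k) • y q = 0) :
    ∃ x : H (levelsS S) (homRep B (JK S k)) 2,
      ∀ q, map (A := homRep B (JK S k)) (B := homRep (Rep.res (rv S q) B) (DlocK S k q))
        (hrv S q) (locHom (rv S) q B (JK S k) (piJK S k q)) 2 x = y q := by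
  obtain ⟨U₁, hU₁, hB⟩ := hB
  obtain ⟨U₂, hU₂, hle, hdvd⟩ := hdeg U₁ hU₁
  exact exists_map_pushLoc_eq (biprodK S k) (rv S) (hrv S) (piqK S k) B 2 y
    (fun q => exists_map_homPush_eq_JqK S k M p q B U₁ hU₁ hB U₂ hU₂ hle (hdvd q) (hinfl q)
      (y q) (hy q))

end Concrete

end Fermat.Agent.S56.Base.Tail.LocSurj
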